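import Mathlib
import Fermat.Agent.V.NormSurj.Main
import Fermat.Agent.V.Frob.OrbitDiv

/-!
# Program V (S27), leaf C7 (NORM-INST), abstract half (prefix `v27ni`)

`X` a set ("places of `F̃`") with a permutation `s` all of whose orbits are finite, `Prin` a
subgroup of `X →₀ ℤ` ("principal divisors") stable under `s` and of total degree `0`.  From
* `hfix`  : `s ^ m` has finitely many fixed points (`m > 0`),
* `hFin`  : the invariant divisors of degree `0` fall into finitely many classes modulo `Prin`,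
* `hCount`: the number of effective invariant divisors equivalent to an invariant divisor `D` of
  large degree depends only on the degree of `D`,
we get (`v27ni_abs`): every invariant divisor of degree `0` is, modulo `Prin`, the norm
`∑_{i<n} s^i D'` of an `s ^ n`-invariant divisor `D'` of degree `0`.
This is `v27n_norm_surj` applied to `Pl := orbits of s`, `G := invariant divisors / Prin`.
-/

set_option autoImplicit false

noncomputable section

namespace Fermat.Agent.V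

open Function

variable {X : Type*}

/-- the action of a permutation on divisors -/
def v27niAct (s : Equiv.Perm X) : (X →₀ ℤ) →+ (X →₀ ℤ) := Finsupp.mapDomain.addMonoidHom ⇑s

@[simp] theorem v27niAct_apply (s : Equiv.Perm X) (D : X →₀ ℤ) :
    v27niAct s D = Finsupp.mapDomain (⇑s) D := rfl

theorem v27niAct_mul (s t : Equiv.Perm X) (D : X →₀ ℤ) :
    v27niAct (s * t) D = v27niAct s (v27niAct t D) := by
  simp only [v27niAct_apply]
  rw [← Finsupp.mapDomain_comp]
  rfl

theorem v27niAct_one (D : X →₀ ℤ) : v27niAct (1 : Equiv.Perm X) D = D := by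
  simp only [v27niAct_apply]
  exact Finsupp.mapDomain_id

theorem v27ni_total_act (s : Equiv.Perm X) (D : X →₀ ℤ) :
    v27odTotal (v27niAct s D) = v27odTotal D := by
  induction D using Finsupp.induction_linear with
  | zero => simp
  | add D E hD hE => rw [map_add, map_add, map_add, hD, hE]
  | single x k => simp [Finsupp.mapDomain_single]

/-- the invariant divisors -/
def v27niInv (s : Equiv.Perm X) : AddSubgroup (X →₀ ℤ) :=
  (v27niAct s).eqLocus (AddMonoidHom.id _)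

theorem mem_v27niInv {s : Equiv.Perm X} {D : X →₀ ℤ} :
    D ∈ v27niInv s ↔ Finsupp.mapDomain (⇑s) D = D := Iff.rfl

/-- the norm `∑_{i<n} s^i` on divisors -/
def v27niNorm (s : Equiv.Perm X) (n : ℕ) : (X →₀ ℤ) →+ (X →₀ ℤ) :=
  ∑ i ∈ Finset.range n, v27niAct (s ^ i)

theorem v27niNorm_apply (s : Equiv.Perm X) (n : ℕ) (D : X →₀ ℤ) :
    v27niNorm s n D = ∑ i ∈ Finset.range n, Finsupp.mapDomain (⇑(s ^ i)) D := by
  simp [v27niNorm]

theorem v27ni_total_norm (s : Equiv.Perm X) (n : ℕ) (D : X →₀ ℤ) :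
    v27odTotal (v27niNorm s n D) = n * v27odTotal D := by
  rw [v27niNorm, AddMonoidHom.finsetSum_apply, map_sum]
  simp only [v27ni_total_act]
  simp

theorem v27niNorm_mem_inv {s : Equiv.Perm X} {n : ℕ} {D : X →₀ ℤ}
    (hD : D ∈ v27niInv (s ^ n)) : v27niNorm s n D ∈ v27niInv s := by
  have h4 : v27niAct (s ^ n) D = D := hD
  show v27niAct s (v27niNorm s n D) = v27niNorm s n D
  have h1 : v27niAct s (v27niNorm s n D) =
      ∑ i ∈ Finset.range n, v27niAct (s ^ (i + 1)) D := by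
    rw [v27niNorm, AddMonoidHom.finsetSum_apply, map_sum]
    refine Finset.sum_congr rfl fun i _ => ?_
    rw [pow_succ', v27niAct_mul]
  rw [h1]
  have h2 := Finset.sum_range_succ' (fun i => v27niAct (s ^ i) D) n
  have h3 := Finset.sum_range_succ (fun i => v27niAct (s ^ i) D) n
  rw [h3] at h2
  simp only [pow_zero, v27niAct_one] at h2
  rw [h4] at h2
  rw [v27niNorm, AddMonoidHom.finsetSum_apply]
  exact (add_right_cancel h2).symm

theorem v27ni_pow_mem {s : Equiv.Perm X} {Prin : AddSubgroup (X →₀ ℤ)}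
    (hPs : ∀ D ∈ Prin, Finsupp.mapDomain (⇑s) D ∈ Prin) (i : ℕ) :
    ∀ D ∈ Prin, Finsupp.mapDomain (⇑(s ^ i)) D ∈ Prin := by
  induction i with
  | zero =>
    intro D hD
    have h1 : Finsupp.mapDomain (⇑(s ^ 0)) D = D := by
      rw [pow_zero]
      exact v27niAct_one D
    rwa [h1]
  | succ i ih =>
    intro D hD
    have h1 : Finsupp.mapDomain (⇑(s ^ (i + 1))) D =
        Finsupp.mapDomain (⇑s) (Finsupp.mapDomain (⇑(s ^ i)) D) := by
      rw [pow_succ']
      exact v27niAct_mul s (s ^ i) D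
    rw [h1]
    exact hPs _ (ih D hD)

section Groups

variable (s : Equiv.Perm X) (Prin : AddSubgroup (X →₀ ℤ))

/-- invariant divisors modulo principal divisors -/
abbrev v27niG : Type _ := ↥(v27niInv s) ⧸ (Prin.addSubgroupOf (v27niInv s))

/-- the class of an invariant divisor -/
def v27niMk : ↥(v27niInv s) →+ v27niG s Prin := QuotientAddGroup.mk' _

theorem v27niMk_surjective : Function.Surjective (v27niMk s Prin) :=
  QuotientAddGroup.mk'_surjective _

theorem v27niMk_eq_iff (D E : ↥(v27niInv s)) :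
    v27niMk s Prin D = v27niMk s Prin E ↔ (D : X →₀ ℤ) - (E : X →₀ ℤ) ∈ Prin := by
  unfold v27niMk
  rw [QuotientAddGroup.mk'_apply, QuotientAddGroup.mk'_apply, QuotientAddGroup.eq_iff_sub_mem,
    AddSubgroup.mem_addSubgroupOf]
  rfl

/-- the degree of a class -/
def v27niDg (hP0 : ∀ D ∈ Prin, v27odTotal D = 0) : v27niG s Prin →+ ℤ :=
  QuotientAddGroup.lift _ (v27odTotal.comp (v27niInv s).subtype) (by
    intro D hD
    rw [AddSubgroup.mem_addSubgroupOf] at hD
    exact hP0 _ hD)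

theorem v27niDg_mk (hP0 : ∀ D ∈ Prin, v27odTotal D = 0) (D : ↥(v27niInv s)) :
    v27niDg s Prin hP0 (v27niMk s Prin D) = v27odTotal (D : X →₀ ℤ) := rfl

/-- the norm on invariant divisors -/
def v27niNormInv (n : ℕ) : ↥(v27niInv (s ^ n)) →+ ↥(v27niInv s) :=
  ((v27niNorm s n).comp (v27niInv (s ^ n)).subtype).codRestrict (v27niInv s)
    (fun D => v27niNorm_mem_inv D.2)

theorem v27niNormInv_coe (n : ℕ) (D : ↥(v27niInv (s ^ n))) :
    ((v27niNormInv s n D : ↥(v27niInv s)) : X →₀ ℤ) = v27niNorm s n (D : X →₀ ℤ) := rfl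

/-- the norm on classes -/
def v27niN (hPs : ∀ D ∈ Prin, Finsupp.mapDomain (⇑s) D ∈ Prin) (n : ℕ) :
    v27niG (s ^ n) Prin →+ v27niG s Prin :=
  QuotientAddGroup.map _ _ (v27niNormInv s n) (by
    intro D hD
    rw [AddSubgroup.mem_comap, AddSubgroup.mem_addSubgroupOf]
    rw [AddSubgroup.mem_addSubgroupOf] at hD
    rw [v27niNormInv_coe, v27niNorm_apply]
    exact Prin.sum_mem (fun i _ => v27ni_pow_mem hPs i _ hD))

theorem v27niN_mk (hPs : ∀ D ∈ Prin, Finsupp.mapDomain (⇑s) D ∈ Prin) (n : ℕ)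
    (D : ↥(v27niInv (s ^ n))) :
    v27niN s Prin hPs n (v27niMk (s ^ n) Prin D) = v27niMk s Prin (v27niNormInv s n D) := rfl

end Groups

/-- the orbit divisor as an invariant divisor -/
def v27niOrb {s : Equiv.Perm X} (h : V27oPer s) (v : v27oOrb s) : ↥(v27niInv s) :=
  ⟨v27oDivOrb h v, by
    obtain ⟨x, rfl⟩ := v27oMk_surjective s v
    rw [mem_v27niInv, v27oDivOrb_mk]
    exact v27oDiv_mapDomain s x⟩

/-- an effective divisor on orbits as an invariant divisor -/
def v27niEff {s : Equiv.Perm X} (h : V27oPer s) (E : v27oOrb s →₀ ℕ) : ↥(v27niInv s) :=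
  ⟨v27odPhi h (v27odCast E), v27odPhi_invariant h _⟩

theorem v27ni_sum_orb {s : Equiv.Perm X} (h : V27oPer s) (E : v27oOrb s →₀ ℕ) :
    (E.sum fun v k => k • v27niOrb h v) = v27niEff h E := by
  apply Subtype.ext
  have h1 : (((E.sum fun v k => k • v27niOrb h v : ↥(v27niInv s))) : X →₀ ℤ) =
      (v27niInv s).subtype (E.sum fun v k => k • v27niOrb h v) := rfl
  rw [h1, map_finsuppSum]
  show (E.sum fun v k => (v27niInv s).subtype (k • v27niOrb h v)) = v27odPhi h (v27odCast E)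
  rw [v27odPhi_cast]
  refine Finsupp.sum_congr fun v _ => ?_
  rw [map_nsmul]
  rfl

theorem v27ni_sum_cl {s : Equiv.Perm X} (h : V27oPer s) (Prin : AddSubgroup (X →₀ ℤ))
    (E : v27oOrb s →₀ ℕ) :
    (E.sum fun v k => k • v27niMk s Prin (v27niOrb h v)) = v27niMk s Prin (v27niEff h E) := by
  rw [← v27ni_sum_orb h E, map_finsuppSum]
  refine Finsupp.sum_congr fun v _ => ?_
  rw [map_nsmul]

/-- effective divisors on orbits in a class = effective invariant divisors in the class -/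
def v27niEffEquiv {s : Equiv.Perm X} (h : V27oPer s) (Prin : AddSubgroup (X →₀ ℤ))
    (D : X →₀ ℤ) :
    {E : v27oOrb s →₀ ℕ // v27odPhi h (v27odCast E) - D ∈ Prin} ≃
      {E' : X →₀ ℤ // Finsupp.mapDomain (⇑s) E' = E' ∧ 0 ≤ E' ∧ E' - D ∈ Prin} where
  toFun E := ⟨v27odPhi h (v27odCast E.1), v27odPhi_invariant h _,
    (v27odPhi_nonneg_iff h _).2 (fun v => by simp), E.2⟩
  invFun E' := ⟨(v27odEffEquiv h).symm ⟨E'.1, E'.2.1, E'.2.2.1⟩, by
    rw [← v27odEffEquiv_apply_coe, Equiv.apply_symm_apply]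
    exact E'.2.2.2⟩
  left_inv E := by
    apply Subtype.ext
    exact (v27odEffEquiv h).symm_apply_apply E.1
  right_inv E' := by
    apply Subtype.ext
    show v27odPhi h (v27odCast ((v27odEffEquiv h).symm ⟨E'.1, E'.2.1, E'.2.2.1⟩)) = E'.1
    rw [← v27odEffEquiv_apply_coe, Equiv.apply_symm_apply]

/-- **C7, abstract form** -/
theorem v27ni_abs (s : Equiv.Perm X) (h : V27oPer s) (hX : Nonempty X)
    (hfix : ∀ m : ℕ, 0 < m → Finite {x : X // (s ^ m) x = x})
    (Prin : AddSubgroup (X →₀ ℤ))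
    (hPs : ∀ D ∈ Prin, Finsupp.mapDomain (⇑s) D ∈ Prin)
    (hP0 : ∀ D ∈ Prin, v27odTotal D = 0)
    (hFin : ∃ T : Set (X →₀ ℤ), T.Finite ∧ ∀ D : X →₀ ℤ, Finsupp.mapDomain (⇑s) D = D →
      v27odTotal D = 0 → ∃ D₀ ∈ T, D - D₀ ∈ Prin)
    (hCount : ∃ d₀ : ℤ, ∀ D D' : X →₀ ℤ, Finsupp.mapDomain (⇑s) D = D →
      Finsupp.mapDomain (⇑s) D' = D' → v27odTotal D = v27odTotal D' → d₀ < v27odTotal D →
      Nat.card {E : X →₀ ℤ // Finsupp.mapDomain (⇑s) E = E ∧ 0 ≤ E ∧ E - D ∈ Prin} =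
        Nat.card {E : X →₀ ℤ // Finsupp.mapDomain (⇑s) E = E ∧ 0 ≤ E ∧ E - D' ∈ Prin})
    (n : ℕ) (hn : 0 < n) :
    ∀ D : X →₀ ℤ, Finsupp.mapDomain (⇑s) D = D → v27odTotal D = 0 →
      ∃ D' : X →₀ ℤ, Finsupp.mapDomain (⇑(s ^ n)) D' = D' ∧ v27odTotal D' = 0 ∧
        (∑ i ∈ Finset.range n, Finsupp.mapDomain (⇑(s ^ i)) D') - D ∈ Prin := by
  classical
  intro D hD hD0
  have hn' : V27oPer (s ^ n) := h.pow n
  have hPs' : ∀ D ∈ Prin, Finsupp.mapDomain (⇑(s ^ n)) D ∈ Prin := v27ni_pow_mem hPs n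
  -- finiteness of the places of bounded degree
  have hfin : ∀ d : ℕ, {v : v27oOrb s | v27oDeg s v ≤ d}.Finite := v27o_finite_deg_le h hfix
  have hfix' : ∀ m : ℕ, 0 < m → Finite {x : X // ((s ^ n) ^ m) x = x} := by
    intro m hm
    rw [← pow_mul]
    exact hfix (n * m) (Nat.mul_pos hn hm)
  have hfin' : ∀ d : ℕ, {w : v27oOrb (s ^ n) | v27oDeg (s ^ n) w ≤ d}.Finite :=
    v27o_finite_deg_le hn' hfix'
  -- finiteness of the classes of degree zero
  have hker : Finite (v27niDg s Prin hP0).ker := by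
    obtain ⟨T, hT, hTD⟩ := hFin
    have hTfin : Finite T := hT
    have hrep : ∀ a : (v27niDg s Prin hP0).ker, ∃ t : T, ∃ E : ↥(v27niInv s),
        v27niMk s Prin E = (a : v27niG s Prin) ∧ (E : X →₀ ℤ) - (t : X →₀ ℤ) ∈ Prin := by
      intro a
      obtain ⟨E, hE⟩ := v27niMk_surjective s Prin (a : v27niG s Prin)
      have h0 : v27odTotal (E : X →₀ ℤ) = 0 := by
        have h1 : v27niDg s Prin hP0 (a : v27niG s Prin) = 0 := a.2
        rw [← hE, v27niDg_mk] at h1
        exact h1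
      obtain ⟨D₀, hD₀, hED₀⟩ := hTD (E : X →₀ ℤ) E.2 h0
      exact ⟨⟨D₀, hD₀⟩, E, hE, hED₀⟩
    choose r E hE hEr using hrep
    refine Finite.of_injective r ?_
    intro a b hab
    apply Subtype.ext
    rw [← hE a, ← hE b, v27niMk_eq_iff]
    have h1 := hEr a
    have h2 := hEr b
    rw [hab] at h1
    have h3 : (E a : X →₀ ℤ) - (E b : X →₀ ℤ) =
        ((E a : X →₀ ℤ) - (r b : X →₀ ℤ)) - ((E b : X →₀ ℤ) - (r b : X →₀ ℤ)) := by abel
    rw [h3]
    exact Prin.sub_mem h1 h2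
  -- the counting hypothesis
  have hRR : ∃ d₀ : ℤ, ∀ C C' : v27niG s Prin,
      v27niDg s Prin hP0 C = v27niDg s Prin hP0 C' → d₀ < v27niDg s Prin hP0 C →
      Nat.card {E : v27oOrb s →₀ ℕ //
          (E.sum fun v k => k • v27niMk s Prin (v27niOrb h v)) = C} =
        Nat.card {E : v27oOrb s →₀ ℕ //
          (E.sum fun v k => k • v27niMk s Prin (v27niOrb h v)) = C'} := by
    obtain ⟨d₀, hd₀⟩ := hCount
    refine ⟨d₀, ?_⟩
    intro C C' hCC' hC
    obtain ⟨A, rfl⟩ := v27niMk_surjective s Prin C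
    obtain ⟨A', rfl⟩ := v27niMk_surjective s Prin C'
    rw [v27niDg_mk] at hC
    rw [v27niDg_mk, v27niDg_mk] at hCC'
    have key : ∀ B : ↥(v27niInv s),
        Nat.card {E : v27oOrb s →₀ ℕ //
          (E.sum fun v k => k • v27niMk s Prin (v27niOrb h v)) = v27niMk s Prin B} =
        Nat.card {E' : X →₀ ℤ // Finsupp.mapDomain (⇑s) E' = E' ∧ 0 ≤ E' ∧
          E' - (B : X →₀ ℤ) ∈ Prin} := by
      intro B
      refine Nat.card_congr ((Equiv.subtypeEquivRight fun E => ?_).trans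
        (v27niEffEquiv h Prin (B : X →₀ ℤ)))
      rw [v27ni_sum_cl, v27niMk_eq_iff]
      rfl
    rw [key A, key A']
    exact hd₀ _ _ A.2 A'.2 hCC' hC
  -- apply the abstract theorem
  have hmain := v27n_norm_surj (v27oDeg s) (v27oDeg (s ^ n)) (v27oDeg_pos h) (v27oDeg_pos hn')
    hfin hfin' (hX.map (v27oMk (s ^ n))) (v27niDg s Prin hP0) (v27niDg (s ^ n) Prin hP0)
    (fun v => v27niMk s Prin (v27niOrb h v))
    (fun w => v27niMk (s ^ n) Prin (v27niOrb hn' w))
    (fun v => by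
      rw [v27niDg_mk]
      exact v27odTotal_divOrb h v)
    (fun w => by
      rw [v27niDg_mk]
      exact v27odTotal_divOrb hn' w)
    n hn (v27niN s Prin hPs n)
    (fun x => by
      obtain ⟨A, rfl⟩ := v27niMk_surjective (s ^ n) Prin x
      rw [v27niN_mk, v27niDg_mk, v27niDg_mk, v27niNormInv_coe, v27ni_total_norm])
    (v27oPi s n) (v27o_hfib h hn) (v27o_hdegpi s hn)
    (fun w => by
      rw [v27niN_mk, ← map_nsmul]
      congr 1
      apply Subtype.ext
      rw [v27niNormInv_coe, v27niNorm_apply]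
      have h1 := v27o_norm_div h hn w
      rw [AddSubgroup.coe_nsmul]
      exact h1)
    hRR
  obtain ⟨a', ha'0, ha'⟩ := hmain (v27niMk s Prin ⟨D, hD⟩) (by rw [v27niDg_mk]; exact hD0)
  obtain ⟨D', rfl⟩ := v27niMk_surjective (s ^ n) Prin a'
  rw [v27niDg_mk] at ha'0
  rw [v27niN_mk, v27niMk_eq_iff, v27niNormInv_coe, v27niNorm_apply] at ha'
  exact ⟨D', D'.2, ha'0, ha'⟩

end Fermat.Agent.V
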