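import Mathlib
import Fermat.Agent.V.NormInst.Abs
import Fermat.Agent.V.Frob.Spec

/-!
# Program V (S27), leaf C7 (NORM-INST), concrete half (prefix `v27ni`)

`v27ni_specNorm : V27SpecNorm σ` : for a semilinear automorphism `σ` of a function field `F / k`
(`k` algebraically closed) acting as `c ↦ c ^ Q` on constants (only `1 < Q` is used here), the norm
`∑_{i<n} σ^i` maps the `σ^n`-fixed points of `Pic0` ONTO the `σ`-fixed points, given
C1 (`V27SpecOrbit σ`), C2 (`V27SpecCount σ Q`), C3(b) (`V27SpecPicDesc σ`), the finiteness of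
`Pic0^σ` (first clause of C5) and `l(D) = deg D + 1 - g` for `deg D > 2g - 2` (Riemann–Roch).
-/

set_option autoImplicit false

noncomputable section

namespace Fermat.Agent.V

open AlgebraicCurve

variable {k F : Type*} [Field k] [Field F] [Algebra k F]

/-- the permutation of the places induced by `σ` -/
def v27niPerm (σ : SemilinearAut k F) : Equiv.Perm (Place k F) := MulAction.toPerm σ

@[simp] theorem v27niPerm_apply (σ : SemilinearAut k F) (v : Place k F) :
    v27niPerm σ v = σ • v := rfl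

theorem v27niPerm_pow (σ : SemilinearAut k F) (m : ℕ) : v27niPerm σ ^ m = v27niPerm (σ ^ m) := by
  unfold v27niPerm
  rw [← MulAction.toPermHom_apply, ← MulAction.toPermHom_apply, map_pow]

theorem v27niPerm_pow_apply (σ : SemilinearAut k F) (m : ℕ) (v : Place k F) :
    (v27niPerm σ ^ m) v = (σ ^ m) • v := by
  rw [v27niPerm_pow]
  rfl

theorem v27ni_mapDomain (σ : SemilinearAut k F) (D : Divisor k F) :
    Finsupp.mapDomain (⇑(v27niPerm σ)) D = σ • D := rfl

theorem v27ni_mapDomain_pow (σ : SemilinearAut k F) (m : ℕ) (D : Divisor k F) :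
    Finsupp.mapDomain (⇑(v27niPerm σ ^ m)) D = (σ ^ m) • D := by
  rw [v27niPerm_pow]
  rfl

theorem v27ni_degree_eq_total (hdeg : ∀ v : Place k F, v.deg = 1) (D : Divisor k F) :
    Divisor.degree D = v27odTotal D := by
  induction D using Finsupp.induction_linear with
  | zero => simp
  | add D E hD hE => rw [map_add, map_add, hD, hE]
  | single v n => rw [Divisor.degree_single, v27odTotal_single, hdeg v]; simp

theorem v27ni_degree_principal [HasPrincipalDivisors k F] {D : Divisor k F}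
    (hD : D ∈ Divisor.principal (K := k) (F := F)) : Divisor.degree D = 0 := by
  have h1 : v27PicMk D = 0 := (QuotientAddGroup.eq_zero_iff D).mpr hD
  have h2 := v27PicDeg_mk D
  rw [h1, map_zero] at h2
  exact h2.symm

theorem v27ni_pic0_mk_eq_iff (D E : Divisor.degZero (K := k) (F := F)) :
    Pic0.mk D = Pic0.mk E ↔ (D : Divisor k F) - (E : Divisor k F) ∈
      Divisor.principal (K := k) (F := F) := by
  unfold Pic0.mk
  rw [QuotientAddGroup.eq_iff_sub_mem, AddSubgroup.mem_addSubgroupOf]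
  rfl

theorem v27ni_pic0_smul_mk (σ : SemilinearAut k F) (D : Divisor k F)
    (hD : D ∈ Divisor.degZero (K := k) (F := F)) :
    σ • Pic0.mk ⟨D, hD⟩ = Pic0.mk ⟨σ • D, SemilinearAut.smul_mem_degZero σ hD⟩ := rfl

theorem v27ni_pic0_mk_sum {ι : Type*} (t : Finset ι) (f : ι → Divisor.degZero (K := k) (F := F)) :
    ∑ i ∈ t, Pic0.mk (f i) = Pic0.mk (∑ i ∈ t, f i) := by
  have h1 : ∀ D : Divisor.degZero (K := k) (F := F), Pic0.mk D = QuotientAddGroup.mk' _ D :=
    fun _ => rfl
  simp only [h1]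
  rw [map_sum]

/-- **C7 NORM-INST** -/
theorem v27ni_specNorm [IsAlgClosed k] [IsCurveOver k F] (σ : SemilinearAut k F) (Q : ℕ)
    (hQ : 1 < Q) (hne : Nonempty (Place k F)) (hOrb : V27SpecOrbit σ)
    (hCount : V27SpecCount σ Q) (hDesc : V27SpecPicDesc σ)
    (hFin : Finite {x : Pic0 k F // σ • x = x}) (g : ℕ)
    (hRR : ∀ D : Divisor k F, 2 * (g : ℤ) - 2 < Divisor.degree D →
      (Module.finrank k (riemannRochSpace D) : ℤ) = Divisor.degree D + 1 - g) :
    V27SpecNorm σ := by
  classical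
  have hdeg : ∀ v : Place k F, v.deg = 1 := IsCurveOver.forall_deg_eq_one_of_isAlgClosed
  have htot : ∀ D : Divisor k F, v27odTotal D = Divisor.degree D :=
    fun D => (v27ni_degree_eq_total hdeg D).symm
  intro n hn y hy
  -- the permutation
  have hper : V27oPer (v27niPerm σ) := by
    intro v
    obtain ⟨m, hm, hv⟩ := hOrb.1 v
    exact ⟨m, hm, by rw [v27niPerm_pow_apply]; exact hv⟩
  have hfix : ∀ m : ℕ, 0 < m → Finite {v : Place k F // (v27niPerm σ ^ m) v = v} := by
    intro m hm
    have h1 : Finite {v : Place k F // (σ ^ m) • v = v} := (hOrb.2 m hm).to_subtype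
    exact Finite.of_equiv {v : Place k F // (σ ^ m) • v = v}
      (Equiv.subtypeEquivRight fun v => by rw [v27niPerm_pow_apply])
  -- principal divisors
  have hPs : ∀ D ∈ Divisor.principal (K := k) (F := F),
      Finsupp.mapDomain (⇑(v27niPerm σ)) D ∈ Divisor.principal (K := k) (F := F) := by
    intro D hD
    rw [v27ni_mapDomain]
    exact SemilinearAut.smul_mem_principal σ hD
  have hP0 : ∀ D ∈ Divisor.principal (K := k) (F := F), v27odTotal D = 0 := by
    intro D hD
    rw [htot]
    exact v27ni_degree_principal hD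
  -- finiteness
  have hFin' : ∃ T : Set (Divisor k F), T.Finite ∧ ∀ D : Divisor k F,
      Finsupp.mapDomain (⇑(v27niPerm σ)) D = D → v27odTotal D = 0 →
      ∃ D₀ ∈ T, D - D₀ ∈ Divisor.principal (K := k) (F := F) := by
    have hrep : ∀ x : Pic0 k F, ∃ E : Divisor.degZero (K := k) (F := F), Pic0.mk E = x :=
      fun x => Pic0.mk_surjective x
    choose rep hrep using hrep
    refine ⟨Set.range (fun x : {x : Pic0 k F // σ • x = x} => ((rep x.1 : Divisor.degZero
      (K := k) (F := F)) : Divisor k F)), Set.finite_range _, ?_⟩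
    intro D hD hD0
    rw [v27ni_mapDomain] at hD
    have hD0' : D ∈ Divisor.degZero (K := k) (F := F) := by
      rw [Divisor.mem_degZero, ← htot]
      exact hD0
    have hx : σ • Pic0.mk ⟨D, hD0'⟩ = Pic0.mk ⟨D, hD0'⟩ := by
      rw [v27ni_pic0_smul_mk]
      congr 1
      exact Subtype.ext hD
    refine ⟨_, ⟨⟨Pic0.mk ⟨D, hD0'⟩, hx⟩, rfl⟩, ?_⟩
    have h1 := hrep (Pic0.mk ⟨D, hD0'⟩)
    rw [v27ni_pic0_mk_eq_iff] at h1
    have h2 := neg_mem h1
    rwa [neg_sub] at h2
  -- the count
  have hCount' : ∃ d₀ : ℤ, ∀ D D' : Divisor k F, Finsupp.mapDomain (⇑(v27niPerm σ)) D = D →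
      Finsupp.mapDomain (⇑(v27niPerm σ)) D' = D' → v27odTotal D = v27odTotal D' →
      d₀ < v27odTotal D →
      Nat.card {E : Divisor k F // Finsupp.mapDomain (⇑(v27niPerm σ)) E = E ∧ 0 ≤ E ∧
          E - D ∈ Divisor.principal (K := k) (F := F)} =
        Nat.card {E : Divisor k F // Finsupp.mapDomain (⇑(v27niPerm σ)) E = E ∧ 0 ≤ E ∧
          E - D' ∈ Divisor.principal (K := k) (F := F)} := by
    refine ⟨2 * (g : ℤ) - 2, ?_⟩
    intro D D' hD hD' hDD' hlarge
    rw [v27ni_mapDomain] at hD hD'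
    rw [htot, htot] at hDD'
    rw [htot] at hlarge
    have key : ∀ B : Divisor k F,
        Nat.card {E : Divisor k F // Finsupp.mapDomain (⇑(v27niPerm σ)) E = E ∧ 0 ≤ E ∧
          E - B ∈ Divisor.principal (K := k) (F := F)} = v27NCls σ (v27PicMk B) := by
      intro B
      unfold v27NCls
      refine Nat.card_congr (Equiv.subtypeEquivRight fun E => ?_)
      rw [v27ni_mapDomain, v27PicMk_eq_iff]
      constructor
      · rintro ⟨h1, h2, h3⟩
        refine ⟨h2, h1, ?_⟩
        have h4 := neg_mem h3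
        rwa [neg_sub] at h4
      · rintro ⟨h1, h2, h3⟩
        refine ⟨h2, h1, ?_⟩
        have h4 := neg_mem h3
        rwa [neg_sub] at h4
    rw [key D, key D']
    have h1 := hCount D hD
    have h2 := hCount D' hD'
    have hl : Module.finrank k (riemannRochSpace D) = Module.finrank k (riemannRochSpace D') := by
      have e1 := hRR D hlarge
      have e2 := hRR D' (hDD' ▸ hlarge)
      rw [hDD'] at e1
      have e3 : (Module.finrank k (riemannRochSpace D) : ℤ) =
          (Module.finrank k (riemannRochSpace D') : ℤ) := by rw [e1, e2]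
      exact_mod_cast e3
    rw [hl, ← h2] at h1
    exact Nat.eq_of_mul_eq_mul_right (by omega) h1
  -- a representative of `y`, then an invariant one
  obtain ⟨D₁, rfl⟩ := Pic0.mk_surjective y
  have hD₁0 : Divisor.degree (D₁ : Divisor k F) = 0 := D₁.2
  have hc : v27PicMap σ (v27PicMk (D₁ : Divisor k F)) = v27PicMk (D₁ : Divisor k F) := by
    rw [v27PicMap_mk, v27PicMk_eq_iff]
    have h1 : σ • Pic0.mk D₁ = Pic0.mk ⟨σ • (D₁ : Divisor k F),
        SemilinearAut.smul_mem_degZero σ D₁.2⟩ := rfl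
    rw [h1, v27ni_pic0_mk_eq_iff] at hy
    have h2 := neg_mem hy
    rwa [neg_sub] at h2
  obtain ⟨D, hDinv, hDD₁⟩ := hDesc.2 _ hc
  rw [v27PicMk_eq_iff] at hDD₁
  have hD0 : Divisor.degree D = 0 := by
    have h1 := v27ni_degree_principal hDD₁
    rw [map_sub, hD₁0] at h1
    linarith
  obtain ⟨D', hD'inv, hD'0, hD'⟩ := v27ni_abs (v27niPerm σ) hper hne hfix
    (Divisor.principal (K := k) (F := F)) hPs hP0 hFin' hCount' n hn D
    (by rw [v27ni_mapDomain]; exact hDinv) (by rw [htot]; exact hD0)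
  rw [v27ni_mapDomain_pow] at hD'inv
  rw [htot] at hD'0
  have hD'mem : D' ∈ Divisor.degZero (K := k) (F := F) := hD'0
  refine ⟨Pic0.mk ⟨D', hD'mem⟩, ?_, ?_⟩
  · rw [v27ni_pic0_smul_mk]
    congr 1
    exact Subtype.ext hD'inv
  · have h1 : ∀ i ∈ Finset.range n, (σ ^ i) • Pic0.mk ⟨D', hD'mem⟩ =
        Pic0.mk ⟨(σ ^ i) • D', SemilinearAut.smul_mem_degZero (σ ^ i) hD'mem⟩ :=
      fun i _ => rfl
    rw [Finset.sum_congr rfl h1, v27ni_pic0_mk_sum, v27ni_pic0_mk_eq_iff]
    have h2 : ((∑ i ∈ Finset.range n, (⟨(σ ^ i) • D',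
        SemilinearAut.smul_mem_degZero (σ ^ i) hD'mem⟩ : Divisor.degZero (K := k) (F := F)) :
        Divisor.degZero (K := k) (F := F)) : Divisor k F) =
        ∑ i ∈ Finset.range n, Finsupp.mapDomain (⇑(v27niPerm σ ^ i)) D' := by
      rw [AddSubmonoidClass.coe_finsetSum]
      refine Finset.sum_congr rfl fun i _ => ?_
      rw [v27ni_mapDomain_pow]
    rw [h2]
    have h3 : (∑ i ∈ Finset.range n, Finsupp.mapDomain (⇑(v27niPerm σ ^ i)) D') -
        (D₁ : Divisor k F) =
        ((∑ i ∈ Finset.range n, Finsupp.mapDomain (⇑(v27niPerm σ ^ i)) D') - D) -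
          ((D₁ : Divisor k F) - D) := by abel
    rw [h3]
    exact sub_mem hD' hDD₁

end Fermat.Agent.V
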